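import Mathlib
import Fermat.Agent.S41.QI.ALMat

/-!
# MR / H / AnW / Conj : conjugation by the Atkin–Lehner matrix as an endomorphism of `Γ₀(N q)`
-/

set_option autoImplicit false

open CongruenceSubgroup Matrix
open scoped MatrixGroups
open Fermat.Agent.S41.AL

namespace Fermat.Agent.MR.H

/-- right cancellation of a matrix with nonzero determinant. -/
theorem Conj_mul_right_cancel {w A B : Matrix (Fin 2) (Fin 2) ℤ} (hw : w.det ≠ 0)
    (h : A * w = B * w) : A = B := by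
  have h1 : A * (w * w.adjugate) = B * (w * w.adjugate) := by
    rw [← Matrix.mul_assoc, ← Matrix.mul_assoc, h]
  rw [Matrix.mul_adjugate, Matrix.mul_smul, Matrix.mul_smul, Matrix.mul_one, Matrix.mul_one] at h1
  ext i j
  have h2 := congrFun (congrFun h1 i) j
  rw [Matrix.smul_apply, Matrix.smul_apply, smul_eq_mul, smul_eq_mul] at h2
  exact mul_left_cancel₀ hw h2

/-- conjugate matrices have the same trace. -/
theorem Conj_trace_eq {w A B : Matrix (Fin 2) (Fin 2) ℤ} (hw : w.det ≠ 0)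
    (h : w * A = B * w) : B.trace = A.trace := by
  have h1 : (w * A * w.adjugate).trace = (B * w * w.adjugate).trace := by rw [h]
  rw [Matrix.trace_mul_cycle, Matrix.adjugate_mul, Matrix.mul_assoc B, Matrix.mul_adjugate,
    Matrix.smul_mul, Matrix.one_mul, Matrix.mul_smul, Matrix.mul_one, Matrix.trace_smul,
    Matrix.trace_smul, smul_eq_mul, smul_eq_mul] at h1
  exact (mul_left_cancel₀ hw h1).symm

/-- conjugation by `w = (q x, y; N q, q)` is a group endomorphism of `Γ₀(N q)` preserving traces. -/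
theorem exists_conjW (N q : ℕ) {x y : ℤ} (hxy : (q : ℤ) * x - N * y = 1) (hq0 : q ≠ 0) :
    ∃ c : Gamma0 (N * q) →* Gamma0 (N * q),
      (∀ γ : Gamma0 (N * q), wMat N q x y * ((γ : SL(2, ℤ)) : Matrix (Fin 2) (Fin 2) ℤ) =
        ((c γ : SL(2, ℤ)) : Matrix (Fin 2) (Fin 2) ℤ) * wMat N q x y) ∧
      (∀ γ : Gamma0 (N * q), ((c γ : SL(2, ℤ)) : Matrix (Fin 2) (Fin 2) ℤ).trace =
        ((γ : SL(2, ℤ)) : Matrix (Fin 2) (Fin 2) ℤ).trace) := by
  have hw : (wMat N q x y).det ≠ 0 := by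
    rw [wMat_det N q hxy]
    exact_mod_cast hq0
  choose f hf using exists_conj N q hxy hq0
  have hmul : ∀ γ δ : Gamma0 (N * q), f (γ * δ) = f γ * f δ := by
    intro γ δ
    apply Subtype.ext
    apply Subtype.ext
    apply Conj_mul_right_cancel hw
    rw [← hf (γ * δ)]
    show wMat N q x y * (((γ : SL(2, ℤ)) : Matrix (Fin 2) (Fin 2) ℤ) *
        ((δ : SL(2, ℤ)) : Matrix (Fin 2) (Fin 2) ℤ)) =
      (((f γ : SL(2, ℤ)) : Matrix (Fin 2) (Fin 2) ℤ) *
        ((f δ : SL(2, ℤ)) : Matrix (Fin 2) (Fin 2) ℤ)) * wMat N q x y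
    rw [← Matrix.mul_assoc, hf γ, Matrix.mul_assoc, hf δ, Matrix.mul_assoc]
  exact ⟨MonoidHom.mk' f hmul, hf, fun γ => Conj_trace_eq hw (hf γ)⟩

end Fermat.Agent.MR.H
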