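import Mathlib
import Fermat.Agent.TOR.AnU.Main

/-!
# MR / H / AnW / Exp : the `Q`-expansion of `τ ↦ c (τ / q)`
-/

set_option autoImplicit false

open ModularCurve AlgebraicCurve CongruenceSubgroup UpperHalfPlane
open Fermat.Agent.S24 ModularForm
open Fermat.Agent.GAL Fermat.Agent.GAL.AN
open scoped MatrixGroups Manifold

noncomputable section

namespace Fermat.Agent.MR.H

local notation "Δ" => ModularForm.discriminant

/-- if the `Q`-expansion of `c` (level `M q`) is a series `C'` in `q = Q^(M q)` then the expansion of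
`τ ↦ c (τ / q)` is `C' (Q ^ M)`. -/
theorem LamM_comp_divH (M q : ℕ) [NeZero M] [NeZero q]
    (c : MerMod (M * q)) (C' : LaurentSeries ℂ) (hC : LamM (M * q) c = kapC (M * q) C')
    (hmem : (fun τ => c.1 (divH q 0 τ)) ∈ MerMod (M * q)) :
    LamM (M * q) ⟨fun τ => c.1 (divH q 0 τ), hmem⟩ = qExpand ℂ M C' := by
  obtain ⟨m, hm⟩ := c.2 1
  simp only [one_smul] at hm
  set G : ℍ → ℂ := fun τ => Δ τ ^ m * c.1 τ with hG
  have hGM : lamQ (M * q) G = qExpand ℂ (M * q) (lamQ 1 Δ ^ m * C') := by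
    have h1 := lamQ_pow_mul_Lam (Subalgebra.inclusion (MerMod_le_MerInf (M * q)) c) hm
    have h2 : Lam (M * q) (Subalgebra.inclusion (MerMod_le_MerInf (M * q)) c) = kapC (M * q) C' :=
      hC
    have h3 : lamQ (M * q) Δ = qExpand ℂ (M * q) (lamQ 1 Δ) := by
      have := lamQ_mul_nat 1 (M * q) (f := Δ) (by simpa using isNice_discriminant_one)
      rwa [one_mul] at this
    rw [h2, h3] at h1
    rw [map_mul, map_pow]
    exact h1.symm
  have hG1 : IsNice 1 G := isNice_one_of_lamQ_eq hm hGM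
  have hGA : lamQ 1 G = lamQ 1 Δ ^ m * C' := lamQ_one_of_lamQ_eq hm hGM
  have hlam : ∀ {F : ℍ → ℂ}, IsNice 1 F →
      lamQ (M * q) (fun τ => F (divH q 0 τ)) = qExpand ℂ M (lamQ 1 F) := by
    intro F hF
    rw [Nat.mul_comm, lamQ_mul_nat q M (isNice_comp_divH q 0 hF), lamQ_comp_divH q 0 hF, pow_zero,
      GR.qScale_one]
  obtain ⟨T, hTdef⟩ : ∃ T : MerInf (M * q), T.1 = fun τ => c.1 (divH q 0 τ) :=
    ⟨⟨_, MerMod_le_MerInf (M * q) hmem⟩, rfl⟩
  obtain ⟨HD, hHD⟩ : ∃ D : MerInf (M * q), D.1 = fun τ => Δ (divH q 0 τ) :=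
    ⟨⟨_, (isNice_comp_divH_mul M q 0 isNice_discriminant_one).mem_MerInf⟩, rfl⟩
  obtain ⟨HG, hHG⟩ : ∃ D : MerInf (M * q), D.1 = fun τ => G (divH q 0 τ) :=
    ⟨⟨_, (isNice_comp_divH_mul M q 0 hG1).mem_MerInf⟩, rfl⟩
  have hmul : HD ^ m * T = HG := by
    apply Subtype.ext
    have : (HD ^ m * T).1 = HD.1 ^ m * T.1 := rfl
    rw [this, hHD, hTdef, hHG]
    rfl
  have hLD : Lam (M * q) HD = qExpand ℂ M (lamQ 1 Δ) := by
    rw [Lam_of_isNice (M * q) HD
      (by rw [hHD]; exact isNice_comp_divH_mul M q 0 isNice_discriminant_one), hHD]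
    exact hlam isNice_discriminant_one
  have hLG : Lam (M * q) HG = qExpand ℂ M (lamQ 1 G) := by
    rw [Lam_of_isNice (M * q) HG (by rw [hHG]; exact isNice_comp_divH_mul M q 0 hG1), hHG]
    exact hlam hG1
  have hD0 : Lam (M * q) HD ≠ 0 := by
    intro h0
    have hD00 : HD = 0 := Lam_injective (M * q) (by rw [h0, map_zero])
    have h1 : HD.1 UpperHalfPlane.I = 0 := by rw [hD00]; rfl
    rw [hHD] at h1
    exact ModularForm.discriminant_ne_zero _ h1
  have hLT : Lam (M * q) T = qExpand ℂ M C' := by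
    have h1 := congrArg (Lam (M * q)) hmul
    rw [map_mul, map_pow, hLG, hGA, map_mul, map_pow, ← hLD] at h1
    exact mul_left_cancel₀ (pow_ne_zero m hD0) h1
  have hTeq : T = Subalgebra.inclusion (MerMod_le_MerInf (M * q))
      ⟨fun τ => c.1 (divH q 0 τ), hmem⟩ := Subtype.ext hTdef
  rw [hTeq] at hLT
  exact hLT

end Fermat.Agent.MR.H
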