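import Mathlib
import Fermat.Agent.MR.H.WOp
import Fermat.Agent.TOR.AnU.Main
import Fermat.Agent.GR.HeckeField.Main

/-!
# MR / H / AnW / Fun : the Atkin–Lehner operator on character functions

`wFun a τ = a (γ₀ (q τ))`, `γ₀ = (u, v; M, q)`, so `γ₀ ∘ (q ·) = w = (q u, v; M q, q)`.
If `a` has character `P` on `Γ₀(M q)` then `wFun a` has character `P ∘ conj_w`.
-/

set_option autoImplicit false

open ModularCurve AlgebraicCurve CongruenceSubgroup UpperHalfPlane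
open Fermat.Agent.S24 ModularForm
open Fermat.Agent.GAL Fermat.Agent.GAL.AN Fermat.Agent.GAL.HK Fermat.Agent.GR.HeckeField
open Fermat.Agent.S41.AL (wMat)
open scoped MatrixGroups Manifold

noncomputable section

namespace Fermat.Agent.MR.H

local notation "Δ" => ModularForm.discriminant

variable (M q : ℕ) [NeZero M] [NeZero q] (u v : ℤ) (h : u * q - v * M = 1)

/-- the Atkin–Lehner operator on functions on `ℍ`. -/
def wFun (f : ℍ → ℂ) : ℍ → ℂ := fun τ => f (gam0 M q u v h • hAct q none τ)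

theorem wFun_apply (f : ℍ → ℂ) (τ : ℍ) :
    wFun M q u v h f τ = f (gam0 M q u v h • hAct q none τ) := rfl

theorem wMat_eq : wMat M q u v =
    ((gam0 M q u v h : SL(2, ℤ)) : Matrix (Fin 2) (Fin 2) ℤ) * heckeRep q none := by
  show _ = !![u, v; (M : ℤ), (q : ℤ)] * !![(q : ℤ), 0; 0, 1]
  rw [wMat, Matrix.mul_fin_two]
  congr 1
  ext i j
  fin_cases i <;> fin_cases j <;> simp [mul_comm]

/-- `w γ = γ' w` on `ℍ`. -/
theorem gam0_hAct_smul (γ γ' : SL(2, ℤ))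
    (hγ : wMat M q u v * (γ : Matrix (Fin 2) (Fin 2) ℤ) =
      (γ' : Matrix (Fin 2) (Fin 2) ℤ) * wMat M q u v) (τ : ℍ) :
    gam0 M q u v h • hAct q none (γ • τ) = γ' • (gam0 M q u v h • hAct q none τ) := by
  have h1 : heckeRep q none * (γ : Matrix (Fin 2) (Fin 2) ℤ) =
      (((gam0 M q u v h)⁻¹ * γ' * gam0 M q u v h : SL(2, ℤ)) : Matrix (Fin 2) (Fin 2) ℤ) *
        heckeRep q none := by
    rw [wMat_eq M q u v h] at hγ
    have h2 : (((gam0 M q u v h)⁻¹ : SL(2, ℤ)) : Matrix (Fin 2) (Fin 2) ℤ) *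
        ((gam0 M q u v h : SL(2, ℤ)) : Matrix (Fin 2) (Fin 2) ℤ) = 1 := by
      rw [← Matrix.SpecialLinearGroup.coe_mul, inv_mul_cancel, Matrix.SpecialLinearGroup.coe_one]
    rw [Matrix.SpecialLinearGroup.coe_mul, Matrix.SpecialLinearGroup.coe_mul, Matrix.mul_assoc,
      Matrix.mul_assoc, ← hγ, Matrix.mul_assoc, ← Matrix.mul_assoc, h2, Matrix.one_mul]
  rw [hAct_smul q h1, ← mul_smul, ← mul_smul]
  congr 1
  group

variable {M q}

/-- **transformation law** of `wFun a`. -/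
theorem wFun_smul {n : ℕ} (a : MerMod (M * q)) (P : HPar (M * q) n)
    (ha : IsCharFun (M * q) n a P) (γ γ' : Gamma0 (M * q))
    (hγ : wMat M q u v * ((γ : SL(2, ℤ)) : Matrix (Fin 2) (Fin 2) ℤ) =
      ((γ' : SL(2, ℤ)) : Matrix (Fin 2) (Fin 2) ℤ) * wMat M q u v) (τ : ℍ) :
    wFun M q u v h a.1 ((γ : SL(2, ℤ)) • τ) =
      eN n ((P : Additive (Gamma0 (M * q)) →+ ZMod n) (Additive.ofMul γ')) *
        wFun M q u v h a.1 τ := by
  rw [wFun_apply, wFun_apply, gam0_hAct_smul M q u v h _ _ hγ, ha]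

variable (M q)

include h in
theorem hxy_of_h : (q : ℤ) * u - M * v = 1 := by linarith

variable {M q}

/-- the Atkin–Lehner operator on `HPar`. -/
def wP {n : ℕ} (P : HPar (M * q) n) : HPar (M * q) n :=
  ⟨Wop M q (hxy_of_h M q u v h) (NeZero.ne q) (ZMod n) (P : Additive (Gamma0 (M * q)) →+ ZMod n),
    Wop_isParabolicHom M q (hxy_of_h M q u v h) (NeZero.ne q) P.2⟩

theorem wP_hom {n : ℕ} (P : HPar (M * q) n) :
    HPar.hom (wP u v h P) = Wop M q (hxy_of_h M q u v h) (NeZero.ne q) (ZMod n) (HPar.hom P) := rfl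

theorem wP_apply {n : ℕ} (P : HPar (M * q) n) (γ : Gamma0 (M * q)) :
    HPar.hom (wP u v h P) (Additive.ofMul γ) =
      HPar.hom P (Additive.ofMul (conjW M q (hxy_of_h M q u v h) (NeZero.ne q) γ)) :=
  rfl

theorem wP_sub {n : ℕ} (P Q : HPar (M * q) n) : wP u v h (P - Q) = wP u v h P - wP u v h Q := by
  apply HPar.ext'
  intro γ
  rfl

theorem wFun_smul' {n : ℕ} (a : MerMod (M * q)) (P : HPar (M * q) n)
    (ha : IsCharFun (M * q) n a P) (γ : Gamma0 (M * q)) (τ : ℍ) :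
    wFun M q u v h a.1 ((γ : SL(2, ℤ)) • τ) =
      eN n (HPar.hom (wP u v h P) (Additive.ofMul γ)) * wFun M q u v h a.1 τ :=
  wFun_smul u v h a P ha γ _ (conjW_spec M q (hxy_of_h M q u v h) (NeZero.ne q) γ) τ

theorem wFun_mem {n : ℕ} [NeZero n] (hq : q.Prime) (a : MerMod (M * q)) (P : HPar (M * q) n)
    (ha : IsCharFun (M * q) n a P) : wFun M q u v h a.1 ∈ MerMod (M * q) := by
  intro g
  obtain ⟨δ, j, hδ⟩ : ∃ (δ : SL(2, ℤ)) (j : Option (Fin q)),
      ∀ τ : ℍ, hAct q none (g • τ) = δ • hAct q j τ := by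
    obtain ⟨δ, j, h'⟩ := HK.exists_hermite hq (heckeRep q none * (g : Matrix (Fin 2) (Fin 2) ℤ))
      (by rw [Matrix.det_mul, HK.det_heckeRep, Matrix.SpecialLinearGroup.det_coe, mul_one])
    exact ⟨δ, j, hAct_smul q h'⟩
  obtain ⟨m, hm⟩ := exists_isHB_hAct (M * q) q a (gam0 M q u v h * δ) j
  have heq : (fun τ => Δ τ ^ m * wFun M q u v h a.1 (g • τ)) =
      fun τ => Δ τ ^ m * a.1 ((gam0 M q u v h * δ) • hAct q j τ) := by
    funext τ
    rw [wFun_apply, hδ, mul_smul]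
  refine ⟨m, ?_, ?_, ?_⟩
  · apply Her.periodic_of_vadd
    intro τ
    have hΔ : Δ (((M * q : ℕ) : ℝ) +ᵥ τ) = Δ τ :=
      Her.vadd_of_periodic (isNice_discriminant (M * q)).per τ
    have hmem := conj_T_zpow_mem_Gamma0 (M * q) g
    have hsm : g • (((M * q : ℕ) : ℝ) +ᵥ τ) =
        ((⟨g * ModularGroup.T ^ ((M * q : ℕ) : ℤ) * g⁻¹, hmem⟩ : Gamma0 (M * q)) : SL(2, ℤ)) •
          (g • τ) := by
      have h1 : (((M * q : ℕ) : ℝ) +ᵥ τ) = ModularGroup.T ^ ((M * q : ℕ) : ℤ) • τ := by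
        rw [UpperHalfPlane.modular_T_zpow_smul]
        simp
      rw [h1]
      simp only [mul_smul, inv_smul_smul]
    have hpar : HPar.hom (wP u v h P)
        (Additive.ofMul (⟨g * ModularGroup.T ^ ((M * q : ℕ) : ℤ) * g⁻¹, hmem⟩ :
          Gamma0 (M * q))) = 0 := by
      apply (wP u v h P).2
      show ((g * ModularGroup.T ^ ((M * q : ℕ) : ℤ) * g⁻¹ : SL(2, ℤ)) :
        Matrix (Fin 2) (Fin 2) ℤ).trace ^ 2 = 4
      rw [(conj_T_zpow_entries g ((M * q : ℕ) : ℤ)).2]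
      norm_num
    show Δ (((M * q : ℕ) : ℝ) +ᵥ τ) ^ m * wFun M q u v h a.1 (g • (((M * q : ℕ) : ℝ) +ᵥ τ)) =
      Δ τ ^ m * wFun M q u v h a.1 (g • τ)
    rw [hΔ, hsm, wFun_smul' u v h a P ha, hpar, eN_zero, one_mul]
  · rw [heq]; exact hm.holo
  · rw [heq]; exact hm.bdd

theorem isCharFun_wFun {n : ℕ} (a : MerMod (M * q)) (P : HPar (M * q) n)
    (ha : IsCharFun (M * q) n a P) (hmem : wFun M q u v h a.1 ∈ MerMod (M * q)) :
    IsCharFun (M * q) n ⟨wFun M q u v h a.1, hmem⟩ (wP u v h P) :=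
  fun γ τ => wFun_smul' u v h a P ha γ τ

/-- `wFun a (τ / q) = a (γ₀ τ)`. -/
theorem wFun_divH (f : ℍ → ℂ) (τ : ℍ) :
    wFun M q u v h f (divH q 0 τ) = f (gam0 M q u v h • τ) := by
  rw [wFun_apply]
  congr 2
  apply UpperHalfPlane.ext
  have hq0 : (q : ℂ) ≠ 0 := Nat.cast_ne_zero.mpr (NeZero.ne q)
  simp [hAct, coe_divH]
  field_simp

end Fermat.Agent.MR.H
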