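import Mathlib
import Fermat.Agent.MR.H.AnW.Fun
import Fermat.Agent.MR.H.AnW.Exp
import Fermat.Agent.TOR.GB.W
import Fermat.Agent.CAR.WN1.Desc

/-!
# MR / H / AnW / Main : (AN-W) the analytic Kummer elements are stable under the Atkin–Lehner involution

`x ∈ Van (M q) n`, `z = x ^ n ∈ FN (M q)`.  Then there is `xt ∈ Van (M q) n` with `xt ^ n = w_q z` and
`chrFun xt = (chrFun x) ∘ conj_w`, `w = (q u, v; M q, q)`.
-/

set_option autoImplicit false

open ModularCurve AlgebraicCurve CongruenceSubgroup UpperHalfPlane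
open Fermat.Agent.S24 ModularForm
open Fermat.Agent.GAL Fermat.Agent.GAL.AN Fermat.Agent.GAL.HK Fermat.Agent.GR.HeckeField
open Fermat.Agent.TOR.GB
open Fermat.Agent.S41.AL (wMat)
open scoped MatrixGroups Manifold

noncomputable section

namespace Fermat.Agent.MR.H

variable {M q : ℕ} [NeZero M] [NeZero q] (u v : ℤ) (h : u * q - v * M = 1)

/-- `(γ_B • a) τ = wFun a (τ / q)`. -/
theorem gamB_smul_eq (a : MerMod (M * q)) :
    (gamB M q u v h 0 • a : MerMod (M * q)).1 = fun τ => wFun M q u v h a.1 (divH q 0 τ) := by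
  funext τ
  rw [wFun_divH]
  show a.1 ((gamB M q u v h 0)⁻¹ • τ) = _
  rw [gamB, inv_inv, zpow_zero, mul_one]

/-- the expansion of `γ_B • a`. -/
theorem LamM_gamB_smul (a : MerMod (M * q)) (hmem : wFun M q u v h a.1 ∈ MerMod (M * q))
    (A' : LaurentSeries ℂ) (hA : LamM (M * q) ⟨_, hmem⟩ = kapC (M * q) A') :
    LamM (M * q) (gamB M q u v h 0 • a) = qExpand ℂ M A' := by
  have h1 : (fun τ => wFun M q u v h a.1 (divH q 0 τ)) ∈ MerMod (M * q) := by
    rw [← gamB_smul_eq]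
    exact (gamB M q u v h 0 • a : MerMod (M * q)).2
  have h2 := LamM_comp_divH M q ⟨_, hmem⟩ A' hA h1
  rw [← h2]
  congr 1
  exact Subtype.ext (gamB_smul_eq u v h a)

theorem isRealC_w (hq : q.Prime) (hqM : ¬ q ∣ M) {n : ℕ} [NeZero n] {H : LaurentSeries ℂ}
    {Pa Pb : HPar (M * q) n} (hr : IsRealC (M * q) n H Pa Pb) (z : FN (M * q))
    (hz : iotaS (z : LaurentSeries Qb) = H ^ n) :
    ∃ H' : LaurentSeries ℂ, IsRealC (M * q) n H' (wP u v h Pa) (wP u v h Pb) ∧
      H' ^ n = iotaS ((wq M q z : FN (M * q)) : LaurentSeries Qb) := by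
  obtain ⟨a, b, ha, hb, hPa, hPb, hab⟩ := hr
  have hma := wFun_mem u v h hq a Pa hPa
  have hmb := wFun_mem u v h hq b Pb hPb
  have cA := isCharFun_wFun u v h a Pa hPa hma
  have cB := isCharFun_wFun u v h b Pb hPb hmb
  obtain ⟨A', hA'⟩ := cA.exists_kapC
  obtain ⟨B', hB'⟩ := cB.exists_kapC
  have eA := LamM_gamB_smul u v h a hma A' hA'
  have eB := LamM_gamB_smul u v h b hmb B' hB'
  set g := gamB M q u v h 0 with hg
  -- non vanishing
  have hne : ∀ c : MerMod (M * q), c ≠ 0 → g • c ≠ 0 := by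
    intro c hc h0
    apply hc
    have := congrArg (fun t => g⁻¹ • t) h0
    simpa using this
  have hA0 : A' ≠ 0 := by
    rintro rfl
    rw [map_zero] at eA
    exact LamM_ne_zero (hne a ha) eA
  have hB0 : B' ≠ 0 := by
    rintro rfl
    rw [map_zero] at eB
    exact LamM_ne_zero (hne b hb) eB
  -- `Psi z = a ^ n / b ^ n`
  have hPsi : Psi (M * q) z * algebraMap (MerMod (M * q)) (LL (M * q)) (b ^ n) =
      algebraMap (MerMod (M * q)) (LL (M * q)) (a ^ n) := by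
    apply LamL_injective (M * q)
    have hk : kap (M * q) z = kapC (M * q) H ^ n := by
      rw [← map_pow, ← hz]
      rfl
    rw [map_mul, LamL_Psi, LamL_algebraMap, LamL_algebraMap, map_pow, map_pow, hab, mul_pow, hk]
  have hPsi' := congrArg (fun t => LamL (M * q) (g • t)) hPsi
  simp only [smul_mul', smul_algebraMap_LL, smul_pow', map_mul, LamL_algebraMap, map_pow] at hPsi'
  have hemb := emb_gamB_eq hq hqM u v h 0 z
  rw [emb_apply] at hemb
  have hroot : rootU q 0 = 1 := by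
    apply Units.ext
    simp
  rw [hemb, hroot, twist_one', eA, eB, ← map_pow, ← map_pow, ← map_mul] at hPsi'
  have hkey : iotaS ((wq M q z : FN (M * q)) : LaurentSeries Qb) * B' ^ n = A' ^ n :=
    (qExpand ℂ M).injective hPsi'
  refine ⟨A' / B', ⟨⟨_, hma⟩, ⟨_, hmb⟩, ?_, ?_, cA, cB, ?_⟩, ?_⟩
  · intro h0
    rw [h0, map_zero] at hA'
    exact hA0 (kapC_injective (M * q) (by rw [← hA', map_zero]))
  · intro h0
    rw [h0, map_zero] at hB'
    exact hB0 (kapC_injective (M * q) (by rw [← hB', map_zero]))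
  · rw [hA', hB', ← map_mul, div_mul_cancel₀ _ hB0]
  · rw [div_pow, ← hkey, mul_div_cancel_right₀ _ (pow_ne_zero n hB0)]

/-- **(AN-W)**. -/
theorem exists_van_w (hq : q.Prime) (hqM : ¬ q ∣ M) {n : ℕ} [NeZero n] (x : Van (M * q) n)
    (z : FN (M * q))
    (hz : (z : LaurentSeries Qb) = ((x : (LaurentSeries Qb)ˣ) : LaurentSeries Qb) ^ n) :
    ∃ xt : Van (M * q) n,
      ((xt : (LaurentSeries Qb)ˣ) : LaurentSeries Qb) ^ n
        = ((wq M q z : FN (M * q)) : LaurentSeries Qb) ∧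
      chrFun xt = wP u v h (chrFun x) := by
  obtain ⟨Pa, Pb, hr, e⟩ := exists_isReal x
  obtain ⟨H', hH', hpow⟩ := isRealC_w u v h hq hqM hr z (by rw [hz, map_pow])
  obtain ⟨y, hy⟩ := CAR.WN1.exists_iotaS_eq_of_pow (NeZero.ne n) hpow
  have hy0 : y ≠ 0 := by
    rintro rfl
    rw [map_zero] at hy
    exact hH'.ne_zero hy.symm
  have hreal : IsReal (M * q) n ((Units.mk0 y hy0 : (LaurentSeries Qb)ˣ) : LaurentSeries Qb)
      (wP u v h Pa) (wP u v h Pb) := by
    unfold IsReal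
    rw [Units.val_mk0, hy]
    exact hH'
  obtain ⟨xt, hxt⟩ : ∃ xt : Van (M * q) n, (xt : (LaurentSeries Qb)ˣ) = Units.mk0 y hy0 :=
    ⟨⟨Units.mk0 y hy0, _, _, hreal⟩, rfl⟩
  refine ⟨xt, ?_, ?_⟩
  · apply iotaS_injective
    rw [hxt, Units.val_mk0, map_pow, hy, hpow]
  · rw [← hxt] at hreal
    rw [chrFun_eq xt hreal, e, wP_sub]

/-- **(AN-W)** in terms of the operator `Wop` of `MR/H/WOp.lean`. -/
theorem exists_van_wop {x y : ℤ} (hxy : (q : ℤ) * x - M * y = 1) (hq : q.Prime) (hqM : ¬ q ∣ M)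
    {n : ℕ} [NeZero n] (X : Van (M * q) n) (z : FN (M * q))
    (hz : (z : LaurentSeries Qb) = ((X : (LaurentSeries Qb)ˣ) : LaurentSeries Qb) ^ n) :
    ∃ xt : Van (M * q) n,
      ((xt : (LaurentSeries Qb)ˣ) : LaurentSeries Qb) ^ n
        = ((wq M q z : FN (M * q)) : LaurentSeries Qb) ∧
      HPar.hom (chrFun xt) = Wop M q hxy (NeZero.ne q) (ZMod n) (HPar.hom (chrFun X)) := by
  obtain ⟨xt, h1, h2⟩ := exists_van_w x y (by linarith) hq hqM X z hz
  exact ⟨xt, h1, by rw [h2]; rfl⟩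

end Fermat.Agent.MR.H
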